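import Fermat.Agent.F4.Duality

/-!
# F4 / DDT / Embed : embedding of finite smooth `𝔽_p[G]`-modules into sums of permutation modules

* `exists_embedding_perm` : every finite smooth `N` embeds equivariantly into a module `P`
  which is a finite direct sum of copies of a permutation module `𝔽_p[G/V]`, `V` a level
  (`P` = functions `G/V → N` with the untwisted action, `n ↦ (x ↦ x⁻¹ n)`), with cokernel `Q`.
-/

set_option autoImplicit false

open CategoryTheory

namespace Fermat.Agent.F4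

section General

variable {k : Type} [CommRing k] {G : Type} [Group G]

/-- A normal subgroup contained in `U` acts trivially on `G ⧸ U`. -/
lemma dv_smul_coset_eq {U V : Subgroup G} (hVn : V.Normal) (hVU : V ≤ U) {g : G} (hg : g ∈ V)
    (x : G ⧸ U) : g⁻¹ • x = x := by
  induction x using QuotientGroup.induction_on with
  | H x =>
    show ((g⁻¹ * x : G) : G ⧸ U) = (x : G ⧸ U)
    rw [QuotientGroup.eq]
    have : x⁻¹ * g * x ∈ V := by
      have := hVn.conj_mem g hg x⁻¹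
      simpa using this
    have h2 : (g⁻¹ * x)⁻¹ * x = x⁻¹ * g * x := by group
    rw [h2]
    exact hVU this

/-- The untwisted representation of `G` on functions `G/U → M`: `(g f)(x) = f(g⁻¹ x)`. -/
def dvFunRepr (k : Type) [CommRing k] (U : Subgroup G) (M : Type) [AddCommGroup M] [Module k M] :
    Representation k G ((G ⧸ U) → M) where
  toFun g := LinearMap.funLeft k M (fun x : G ⧸ U => g⁻¹ • x)
  map_one' := by
    refine LinearMap.ext fun f => funext fun x => ?_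
    simp [LinearMap.funLeft_apply]
  map_mul' g h := by
    refine LinearMap.ext fun f => funext fun x => ?_
    simp [LinearMap.funLeft_apply, mul_smul]

lemma dvFunRepr_apply (U : Subgroup G) (M : Type) [AddCommGroup M] [Module k M] (g : G)
    (f : (G ⧸ U) → M) (x : G ⧸ U) : dvFunRepr k U M g f x = f (g⁻¹ • x) := rfl

/-- `ρ (g⁻¹) (ρ g n) = n`. -/
lemma dv_ρ_inv_ρ (N : Rep.{0} k G) (g : G) (n : N) : N.ρ g⁻¹ (N.ρ g n) = n := by
  have h := congrArg (fun φ : N →ₗ[k] N => φ n) (map_mul N.ρ g⁻¹ g)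
  simp only [inv_mul_cancel, map_one] at h
  exact h.symm

lemma dv_ρ_ρ_inv (N : Rep.{0} k G) (g : G) (n : N) : N.ρ g (N.ρ g⁻¹ n) = n := by
  have h := dv_ρ_inv_ρ N g⁻¹ n
  rwa [inv_inv] at h

lemma dv_ρ_mul (N : Rep.{0} k G) (g h : G) (n : N) : N.ρ (g * h) n = N.ρ g (N.ρ h n) := by
  rw [map_mul]; rfl

/-- The map `n ↦ (x ↦ x⁻¹ n)` (via the chosen representatives). -/
noncomputable def dvEmb (V : Subgroup G) (N : Rep.{0} k G) : N →ₗ[k] ((G ⧸ V) → N) :=
  LinearMap.pi fun x => N.ρ (x.out)⁻¹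

lemma dvEmb_mk {V : Subgroup G} {N : Rep.{0} k G} (hfix : ∀ g ∈ V, ∀ n : N, N.ρ g n = n)
    (g : G) (n : N) : dvEmb V N n (g : G ⧸ V) = N.ρ g⁻¹ n := by
  obtain ⟨h, hh⟩ := QuotientGroup.mk_out_eq_mul V g
  show N.ρ ((g : G ⧸ V).out)⁻¹ n = _
  rw [hh, mul_inv_rev, dv_ρ_mul]
  exact hfix _ (V.inv_mem h.2) _

lemma dvEmb_equivariant {V : Subgroup G} {N : Rep.{0} k G}
    (hfix : ∀ g ∈ V, ∀ n : N, N.ρ g n = n) (g : G) (n : N) :
    dvEmb V N (N.ρ g n) = dvFunRepr k V N g (dvEmb V N n) := by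
  funext x
  induction x using QuotientGroup.induction_on with
  | H x =>
    rw [dvFunRepr_apply]
    have h1 : g⁻¹ • (x : G ⧸ V) = ((g⁻¹ * x : G) : G ⧸ V) := rfl
    rw [h1, dvEmb_mk hfix, dvEmb_mk hfix, ← dv_ρ_mul]
    congr 2
    group

lemma dvEmb_injective {V : Subgroup G} {N : Rep.{0} k G}
    (hfix : ∀ g ∈ V, ∀ n : N, N.ρ g n = n) : Function.Injective (dvEmb V N) := by
  intro n n' h
  have h1 := congrFun h ((1 : G) : G ⧸ V)
  rw [dvEmb_mk hfix, dvEmb_mk hfix] at h1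
  simpa using h1

end General

section Embedding

variable {p : ℕ} [Fact p.Prime] {G : Type} [Group G]

theorem exists_embedding_perm (𝓤 : Levels G) (N : Rep.{0} (ZMod p) G) (hN : IsSmooth 𝓤 N)
    (hfin : Module.Finite (ZMod p) N) :
    ∃ (V : Subgroup G) (_ : V ∈ 𝓤.sets) (P Q : Rep.{0} (ZMod p) G)
      (i : N →ₗ[ZMod p] P) (q : P →ₗ[ZMod p] Q) (ι : Type) (_ : Fintype ι)
      (a : ι → (permRep (ZMod p) V →ₗ[ZMod p] P)) (b : ι → (P →ₗ[ZMod p] permRep (ZMod p) V)),
      (∀ (g : G) (n : N), i (N.ρ g n) = P.ρ g (i n)) ∧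
      (∀ (g : G) (x : P), q (P.ρ g x) = Q.ρ g (q x)) ∧
      Function.Injective i ∧ Function.Surjective q ∧ (∀ x, q x = 0 ↔ ∃ n, i n = x) ∧
      IsSmooth 𝓤 P ∧ Module.Finite (ZMod p) P ∧ IsSmooth 𝓤 Q ∧ Module.Finite (ZMod p) Q ∧
      (∀ (j : ι) (g : G) (f : permRep (ZMod p) V), a j ((permRep (ZMod p) V).ρ g f) = P.ρ g (a j f)) ∧
      (∀ (j : ι) (g : G) (x : P), b j (P.ρ g x) = (permRep (ZMod p) V).ρ g (b j x)) ∧
      (∀ x : P, ∑ j, a j (b j x) = x) := by
  have := hfin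
  obtain ⟨V, hV, hfix⟩ := exists_level_fixing 𝓤 N hN
  have hVn : V.Normal := 𝓤.normal V hV
  have hVfi := 𝓤.finiteIndex V hV
  have : Finite (G ⧸ V) := Subgroup.finite_quotient_of_finiteIndex
  have hst : ∀ g, LinearMap.range (dvEmb V N) ≤
      (LinearMap.range (dvEmb V N)).comap (dvFunRepr (ZMod p) V N g) := by
    rintro g _ ⟨n, rfl⟩
    exact ⟨N.ρ g n, dvEmb_equivariant hfix g n⟩
  have htriv : ∀ g ∈ V, ∀ f : (G ⧸ V) → N, dvFunRepr (ZMod p) V N g f = f := by
    intro g hg f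
    funext x
    rw [dvFunRepr_apply, dv_smul_coset_eq hVn le_rfl hg]
  let e := Module.finBasis (ZMod p) N
  refine ⟨V, hV, Rep.of (dvFunRepr (ZMod p) V N),
    Rep.of ((dvFunRepr (ZMod p) V N).quotient _ hst), dvEmb V N, Submodule.mkQ _,
    Fin (Module.finrank (ZMod p) N), inferInstance,
    fun j => LinearMap.pi fun x => (LinearMap.proj x).smulRight (e j),
    fun j => (e.coord j).compLeft (G ⧸ V), ?_, ?_, ?_, ?_, ?_, ?_, ?_, ?_, ?_, ?_, ?_, ?_⟩
  · exact fun g n => dvEmb_equivariant hfix g n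
  · intro g x
    rfl
  · exact dvEmb_injective hfix
  · exact Submodule.mkQ_surjective _
  · intro x
    rw [Submodule.mkQ_apply, Submodule.Quotient.mk_eq_zero, LinearMap.mem_range]
  · intro f
    exact ⟨V, hV, fun g hg => htriv g hg f⟩
  · show Module.Finite (ZMod p) ((G ⧸ V) → N)
    infer_instance
  · intro a
    obtain ⟨f, rfl⟩ := Submodule.mkQ_surjective _ a
    refine ⟨V, hV, fun g hg => ?_⟩
    show Submodule.mkQ _ (dvFunRepr (ZMod p) V N g f) = _
    rw [htriv g hg f]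
  · show Module.Finite (ZMod p) (((G ⧸ V) → N) ⧸ LinearMap.range (dvEmb V N))
    infer_instance
  · intro j g f
    rfl
  · intro j g x
    rfl
  · intro x
    show (∑ j, (LinearMap.pi fun y => (LinearMap.proj y).smulRight (e j) :
        ((G ⧸ V) → ZMod p) →ₗ[ZMod p] ((G ⧸ V) → N))
        (((e.coord j).compLeft (G ⧸ V)) x) : (G ⧸ V) → N) = x
    funext y
    rw [Finset.sum_apply]
    show ∑ j, (e.coord j (x y)) • e j = x y
    exact e.sum_repr (x y)

end Embedding

end Fermat.Agent.F4
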