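import Fermat.Agent.F4.DDT.Basic
import Fermat.Agent.F4.HyperPair

/-!
# F4 / DDT / Ext : the three diagram chases of the dévissage duality theorem (DDT Step A)

For a short exact sequence `0 → N' → N → N'' → 0` of finite smooth `k[G]`-modules (`k` a field),
a smooth 2-term complex `K` and a linear form `inv` on `HH²(K)`:

* `A2Inj_of_ext`  : `A2Inj N'`, `A2Inj N''`, `A1Surj N'` imply `A2Inj N`;
* `A1Surj_of_ext` : `A1Surj N'`, `A1Surj N''`, `A2Inj N''` imply `A1Surj N`;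
* `A1Inj_of_sub`  : `A1Inj N`, `A1Surj N''`, `A2Inj N''` imply `A1Inj N'`.

Everything is done on cocycles, with the long exact sequence of
`0 → Hom(N'', K) → Hom(N, K) → Hom(N', K) → 0` (`F4/HyperLES.lean`) and the compatibility of the
pairings with the connecting map (`F4/HyperPair.lean`).
-/

set_option autoImplicit false

open CategoryTheory groupCohomology

namespace Fermat.Agent.F4

variable {k G : Type} [Field k] [Group G]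

/-! ### The invariants and the linear forms `α²(z)`, `α¹(e)` -/

section Alpha

variable (𝓤 : Levels G) (K : Cx k G) (inv : HH2 𝓤 K →ₗ[k] k) (N : Rep.{0} k G)

/-- The invariants `N^G` as a submodule. -/
def ddtInv : Submodule k N where
  carrier := {n | ∀ g : G, N.ρ g n = n}
  add_mem' := by
    intro a b ha hb g
    rw [map_add, ha g, hb g]
  zero_mem' := fun g => map_zero _
  smul_mem' := by
    intro c a ha g
    rw [map_smul, ha g]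

lemma mem_ddtInv (n : N) : n ∈ ddtInv N ↔ ∀ g : G, N.ρ g n = n := Iff.rfl

/-- `n ↦ z ∪ n` on invariants, as a linear map to the smooth 2-cocycles of `K`. -/
def ddtCup2 (z : ↥(ZZ2 𝓤 (homCx N K))) : ↥(ddtInv N) →ₗ[k] ↥(ZZ2 𝓤 K) where
  toFun n := cupZ2 𝓤 K N z n.1 n.2
  map_add' n n' := Subtype.ext (cup2_add_right K N z.1 n.1 n'.1)
  map_smul' a n := Subtype.ext (cup2_smul_right K N a z.1 n.1)

/-- The linear form `α²(z)` on `N^G`. -/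
def ddtAlpha2 (z : ↥(ZZ2 𝓤 (homCx N K))) : ↥(ddtInv N) →ₗ[k] k :=
  inv ∘ₗ HH2π 𝓤 K ∘ₗ ddtCup2 𝓤 K N z

lemma ddtAlpha2_apply (z : ↥(ZZ2 𝓤 (homCx N K))) (n : ↥(ddtInv N)) :
    ddtAlpha2 𝓤 K inv N z n = inv (HH2π 𝓤 K (cupZ2 𝓤 K N z n.1 n.2)) := rfl

variable {𝓤 K}

/-- `inv` takes the same value on two cocycles which differ by a coboundary. -/
lemma inv_eq_of_sub_mem_BB2 {a b : ↥(ZZ2 𝓤 K)} (h : (a : T2 K) - b ∈ BB2 𝓤 K) :
    inv (HH2π 𝓤 K a) = inv (HH2π 𝓤 K b) := by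
  rw [(HH2π_eq_iff 𝓤 K a b).2 h]

/-- `inv` vanishes on the class of a coboundary. -/
lemma inv_eq_zero_of_mem_BB2 {a : ↥(ZZ2 𝓤 K)} (h : (a : T2 K) ∈ BB2 𝓤 K) :
    inv (HH2π 𝓤 K a) = 0 := by
  rw [(HH2π_eq_zero_iff 𝓤 K a).2 h, map_zero]

variable (𝓤 K)
variable (hN : IsSmooth 𝓤 N) (hfin : Module.Finite k N)

/-- `y ↦ e ∪ y` as a linear map from smooth 1-cocycles of `N` to smooth 2-cocycles of `K`. -/
def ddtCup1 (e : ↥(ZZ1 𝓤 (homCx N K))) : ↥(Z1 𝓤 N) →ₗ[k] ↥(ZZ2 𝓤 K) where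
  toFun y := cupZ1 𝓤 K N hN hfin e y
  map_add' y y' := Subtype.ext (cup1_add_right K N e.1 y.1 y'.1)
  map_smul' a y := Subtype.ext (cup1_smul_right K N a e.1 y.1)

/-- The linear form `α¹(e)` on `H¹(N)`. -/
def ddtAlpha1 (e : ↥(ZZ1 𝓤 (homCx N K))) : H1sm 𝓤 N →ₗ[k] k :=
  Submodule.liftQ _ (inv ∘ₗ HH2π 𝓤 K ∘ₗ ddtCup1 𝓤 K N hN hfin e) (by
    intro y hy
    rw [LinearMap.mem_ker]
    obtain ⟨n, hn⟩ := (mem_B1_iff N y.1).1 hy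
    show inv (HH2π 𝓤 K (cupZ1 𝓤 K N hN hfin e y)) = 0
    refine inv_eq_zero_of_mem_BB2 inv ?_
    show cup1 N K e.1 y.1 ∈ BB2 𝓤 K
    rw [← hn]
    have := hfin
    exact cup1_δ0_mem_BB2 𝓤 K N hN e.2 n)

lemma ddtAlpha1_mk (e : ↥(ZZ1 𝓤 (homCx N K))) (y : ↥(Z1 𝓤 N)) :
    ddtAlpha1 𝓤 K inv N hN hfin e (H1smπ 𝓤 N y) =
      inv (HH2π 𝓤 K (cupZ1 𝓤 K N hN hfin e y)) := rfl

end Alpha

/-! ### Subtraction in the left slot of the pairings -/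

section Sub

variable (K : Cx k G) (N : Rep.{0} k G)

lemma cup1_sub_left (e e' : T1 (homCx N K)) (y : G → N) :
    cup1 N K (e - e') y = cup1 N K e y - cup1 N K e' y := rfl

lemma cup2_sub_left (z z' : T2 (homCx N K)) (n : N) :
    cup2 N K (z - z') n = cup2 N K z n - cup2 N K z' n := rfl

end Sub

/-! ### The chases -/

section Chase

variable (𝓤 : Levels G) (K : Cx k G) (inv : HH2 𝓤 K →ₗ[k] k)
variable {N' N N'' : Rep.{0} k G} {i : N' →ₗ[k] N} {q : N →ₗ[k] N''}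

/-- If `g n - n` lies in the image of `N'` for all `g`, then `q n` is invariant. -/
lemma RepSES.q_invariant (h : RepSES i q) (n : N) (y' : G → N')
    (hy' : ∀ g, i (y' g) = N.ρ g n - n) (g : G) : N''.ρ g (q n) = q n := by
  have h0 : q (N.ρ g n - n) = 0 := by
    rw [← hy' g]
    exact h.q_i _
  rw [map_sub, h.hq, sub_eq_zero] at h0
  exact h0

/-- The pairings are compatible with the connecting maps:
`inv [w'' ∪ q n] = inv [e' ∪ y']` when `[w''] = ∂[e']` and `[y'] = δ (q n)`. -/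
lemma ddt_conn_pair (hK : K.Smooth 𝓤) (h : RepSES i q)
    (hN' : IsSmooth 𝓤 N') (hfin' : Module.Finite k N') (hN : IsSmooth 𝓤 N)
    (hfin : Module.Finite k N)
    (e' : ↥(ZZ1 𝓤 (homCx N' K))) (w'' : ↥(ZZ2 𝓤 (homCx N'' K)))
    (hrel : Conn1Rel 𝓤 (homCxMap q h.hq K) (homCxMap i h.hi K) (e' : T1 (homCx N' K))
      (w'' : T2 (homCx N'' K)))
    (n : N) (y' : ↥(Z1 𝓤 N')) (hy' : ∀ g, i (y'.1 g) = N.ρ g n - n)
    (hqn : ∀ g : G, N''.ρ g (q n) = q n) :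
    inv (HH2π 𝓤 K (cupZ2 𝓤 K N'' w'' (q n) hqn)) =
      inv (HH2π 𝓤 K (cupZ1 𝓤 K N' hN' hfin' e' y')) := by
  refine inv_eq_of_sub_mem_BB2 inv ?_
  have := hfin
  exact cup2_conn1_sub_cup1_mem_BB2 𝓤 K i h.hi q h.hq hK hN hrel e'.2 n y'.1 hy'
    ((mem_Z1_iff 𝓤 N' y'.1).1 y'.2).2

/-- A cocycle `e'` of `Hom(N', K)` whose `α¹` kills the boundary classes lifts, up to a
coboundary, to a cocycle of `Hom(N, K)`. -/
lemma ddt_exists_lift (hK : K.Smooth 𝓤) (h : RepSES i q)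
    (hN' : IsSmooth 𝓤 N') (hfin' : Module.Finite k N') (hN : IsSmooth 𝓤 N)
    (hfin : Module.Finite k N)
    (h2'' : A2Inj 𝓤 K N'' inv)
    (e' : ↥(ZZ1 𝓤 (homCx N' K)))
    (hvan : ∀ (n : N) (y' : ↥(Z1 𝓤 N')), (∀ g, i (y'.1 g) = N.ρ g n - n) →
        inv (HH2π 𝓤 K (cupZ1 𝓤 K N' hN' hfin' e' y')) = 0) :
    ∃ e : ↥(ZZ1 𝓤 (homCx N K)),
      (homCxMap i h.hi K).t1 (e : T1 (homCx N K)) - (e' : T1 (homCx N' K))
        ∈ BB1 (homCx N' K) := by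
  have hS := homCx_shortExact K h
  have hHK := homCx_smooth 𝓤 K hK N hN hfin
  obtain ⟨w'', hw'', hrel⟩ := Conn1Rel.exists hS hHK e'.2
  have hw0 : w'' ∈ BB2 𝓤 (homCx N'' K) := by
    refine h2'' ⟨w'', hw''⟩ fun n'' hn'' => ?_
    obtain ⟨n, y', rfl, hy'⟩ := h.exists_boundary 𝓤 hN n'' hn''
    rw [ddt_conn_pair 𝓤 K inv hK h hN' hfin' hN hfin e' ⟨w'', hw''⟩ hrel n y' hy' hn'']
    exact hvan n y' hy'
  have hc : CxShortExact.conn1 hS hHK (HH1π 𝓤 _ e') = 0 := by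
    rw [CxShortExact.conn1_mk hS hHK e' ⟨w'', hw''⟩ hrel, HH2π_eq_zero_iff]
    exact hw0
  obtain ⟨y, hy⟩ := (CxShortExact.exact_HH1_right hS hHK _).1 hc
  obtain ⟨e, rfl⟩ := HH1π_surjective 𝓤 _ y
  rw [CxHom.hh1_mk, HH1π_eq_iff] at hy
  exact ⟨e, hy⟩

/-- `α¹(e) ∘ H¹(i) = α¹(e')` when `i^* e` and `e'` are cohomologous. -/
lemma ddtAlpha1_comp_i (h : RepSES i q)
    (hN' : IsSmooth 𝓤 N') (hfin' : Module.Finite k N') (hN : IsSmooth 𝓤 N)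
    (hfin : Module.Finite k N)
    (e : ↥(ZZ1 𝓤 (homCx N K))) (e' : ↥(ZZ1 𝓤 (homCx N' K)))
    (hee' : (homCxMap i h.hi K).t1 (e : T1 (homCx N K)) - (e' : T1 (homCx N' K))
      ∈ BB1 (homCx N' K))
    (y' : ↥(Z1 𝓤 N')) :
    ddtAlpha1 𝓤 K inv N hN hfin e (H1smMap 𝓤 i h.hi (H1smπ 𝓤 N' y')) =
      inv (HH2π 𝓤 K (cupZ1 𝓤 K N' hN' hfin' e' y')) := by
  rw [H1smMap_mk, ddtAlpha1_mk]
  refine inv_eq_of_sub_mem_BB2 inv ?_
  show cup1 N K e.1 (fun g => i (y'.1 g)) - cup1 N' K e'.1 y'.1 ∈ BB2 𝓤 K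
  rw [← cup1_homCxMap K i h.hi e.1 y'.1, ← cup1_sub_left]
  obtain ⟨x, hx⟩ := hee'
  rw [← hx]
  exact cup1_D0_mem_BB2 𝓤 K N' x y'.2

/-- `(q^* e'') ∪ y = e'' ∪ q y`. -/
lemma ddt_cupZ1_q (h : RepSES i q) (hN : IsSmooth 𝓤 N) (hfin : Module.Finite k N)
    (hN'' : IsSmooth 𝓤 N'') (hfin'' : Module.Finite k N'')
    (e'' : ↥(ZZ1 𝓤 (homCx N'' K))) (y : ↥(Z1 𝓤 N)) :
    cupZ1 𝓤 K N hN hfin ((homCxMap q h.hq K).zz1 𝓤 e'') y =
      cupZ1 𝓤 K N'' hN'' hfin'' e'' (Z1map 𝓤 q h.hq y) :=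
  Subtype.ext (cup1_homCxMap K q h.hq e''.1 y.1)

/-- A linear form on `H¹(N)` killing the image of `H¹(N')` factors through `H¹(N'')`. -/
lemma ddt_factor_q (h : RepSES i q) (hN : IsSmooth 𝓤 N) (ψ : H1sm 𝓤 N →ₗ[k] k)
    (hψ : ∀ x' : H1sm 𝓤 N', ψ (H1smMap 𝓤 i h.hi x') = 0) :
    ∃ ψ'' : H1sm 𝓤 N'' →ₗ[k] k, ∀ x, ψ'' (H1smMap 𝓤 q h.hq x) = ψ x := by
  refine exists_dual_factor (H1smMap 𝓤 q h.hq) ψ fun x hx => ?_
  obtain ⟨x', rfl⟩ := h.H1sm_exact_mid 𝓤 hN x hx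
  exact hψ x'

theorem A1Surj_of_ext (hK : K.Smooth 𝓤) (h : RepSES i q)
    (hN' : IsSmooth 𝓤 N') (hfin' : Module.Finite k N') (hN : IsSmooth 𝓤 N) (hfin : Module.Finite k N)
    (hN'' : IsSmooth 𝓤 N'') (hfin'' : Module.Finite k N'')
    (h1' : A1Surj 𝓤 K N' inv hN' hfin') (h1'' : A1Surj 𝓤 K N'' inv hN'' hfin'') (h2'' : A2Inj 𝓤 K N'' inv) :
    A1Surj 𝓤 K N inv hN hfin := by
  intro φ
  obtain ⟨e', he'⟩ := h1' (φ ∘ₗ H1smMap 𝓤 i h.hi)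
  obtain ⟨e, hee'⟩ := ddt_exists_lift 𝓤 K inv hK h hN' hfin' hN hfin h2'' e' (by
    intro n y' hy'
    rw [he' y']
    show φ (H1smMap 𝓤 i h.hi (H1smπ 𝓤 N' y')) = 0
    rw [h.H1smMap_boundary 𝓤 n y' hy', map_zero])
  obtain ⟨ψ'', hψ''⟩ := ddt_factor_q 𝓤 h hN (φ - ddtAlpha1 𝓤 K inv N hN hfin e) (by
    intro x'
    obtain ⟨y', rfl⟩ := H1smπ_surjective 𝓤 N' x'
    rw [LinearMap.sub_apply, ddtAlpha1_comp_i 𝓤 K inv h hN' hfin' hN hfin e e' hee' y', he' y']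
    exact sub_self _)
  obtain ⟨e'', he''⟩ := h1'' ψ''
  refine ⟨e + (homCxMap q h.hq K).zz1 𝓤 e'', fun y => ?_⟩
  have hadd : cupZ1 𝓤 K N hN hfin (e + (homCxMap q h.hq K).zz1 𝓤 e'') y
      = cupZ1 𝓤 K N hN hfin e y + cupZ1 𝓤 K N hN hfin ((homCxMap q h.hq K).zz1 𝓤 e'') y := rfl
  rw [hadd, map_add, map_add, ddt_cupZ1_q 𝓤 K h hN hfin hN'' hfin'' e'' y, he'', ← H1smMap_mk,
    hψ'', ← ddtAlpha1_mk, LinearMap.sub_apply]
  abel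

theorem A1Inj_of_sub (hK : K.Smooth 𝓤) (h : RepSES i q)
    (hN' : IsSmooth 𝓤 N') (hfin' : Module.Finite k N') (hN : IsSmooth 𝓤 N) (hfin : Module.Finite k N)
    (hN'' : IsSmooth 𝓤 N'') (hfin'' : Module.Finite k N'')
    (h1 : A1Inj 𝓤 K N inv hN hfin) (h1'' : A1Surj 𝓤 K N'' inv hN'' hfin'') (h2'' : A2Inj 𝓤 K N'' inv) :
    A1Inj 𝓤 K N' inv hN' hfin' := by
  intro e' he'
  have hS := homCx_shortExact K h
  obtain ⟨e, hee'⟩ := ddt_exists_lift 𝓤 K inv hK h hN' hfin' hN hfin h2'' e'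
    (fun n y' _ => he' y')
  obtain ⟨ψ'', hψ''⟩ := ddt_factor_q 𝓤 h hN (ddtAlpha1 𝓤 K inv N hN hfin e) (by
    intro x'
    obtain ⟨y', rfl⟩ := H1smπ_surjective 𝓤 N' x'
    rw [ddtAlpha1_comp_i 𝓤 K inv h hN' hfin' hN hfin e e' hee' y', he' y'])
  obtain ⟨e'', he''⟩ := h1'' ψ''
  have hmem := h1 (e - (homCxMap q h.hq K).zz1 𝓤 e'') (by
    intro y
    have hsub : cupZ1 𝓤 K N hN hfin (e - (homCxMap q h.hq K).zz1 𝓤 e'') y
      = cupZ1 𝓤 K N hN hfin e y - cupZ1 𝓤 K N hN hfin ((homCxMap q h.hq K).zz1 𝓤 e'') y := rfl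
    rw [hsub, map_sub, map_sub, ddt_cupZ1_q 𝓤 K h hN hfin hN'' hfin'' e'' y, he'',
      ← H1smMap_mk, hψ'', ← ddtAlpha1_mk]
    exact sub_self _)
  obtain ⟨x, hx⟩ := hmem
  obtain ⟨x', hx'⟩ := hee'
  refine ⟨(homCxMap i h.hi K).f0 x - x', ?_⟩
  rw [map_sub, hx', CxHom.D0_t, hx]
  have h0 : (homCxMap i h.hi K).t1 ((homCxMap q h.hq K).t1 (e'' : T1 (homCx N'' K))) = 0 :=
    hS.g_t1_f_t1 _
  show (homCxMap i h.hi K).t1 ((e : T1 (homCx N K)) - (homCxMap q h.hq K).t1 (e'' : T1 (homCx N'' K)))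
    - ((homCxMap i h.hi K).t1 (e : T1 (homCx N K)) - (e' : T1 (homCx N' K))) = e'
  rw [map_sub, h0]
  abel

/-! ### The graph of the connecting map `H⁰(N'') → H¹(N')` -/

variable (i) in
/-- Pairs `(n, y')` with `i (y' g) = g n - n`: the graph of the boundary relation. -/
def ddtV : Submodule k (N × ↥(Z1 𝓤 N')) where
  carrier := {p | ∀ g : G, i (p.2.1 g) = N.ρ g p.1 - p.1}
  add_mem' := by
    intro a b ha hb g
    show i (a.2.1 g + b.2.1 g) = N.ρ g (a.1 + b.1) - (a.1 + b.1)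
    rw [map_add, map_add, ha g, hb g]
    abel
  zero_mem' := by
    intro g
    show i 0 = N.ρ g 0 - 0
    rw [map_zero, map_zero, sub_zero]
  smul_mem' := by
    intro c a ha g
    show i (c • a.2.1 g) = N.ρ g (c • a.1) - c • a.1
    rw [map_smul, map_smul, ha g, smul_sub]

lemma mem_ddtV (p : N × ↥(Z1 𝓤 N')) :
    p ∈ ddtV 𝓤 i ↔ ∀ g : G, i (p.2.1 g) = N.ρ g p.1 - p.1 := Iff.rfl

/-- `(n, y') ↦ [y']`. -/
def ddtVcls : ↥(ddtV 𝓤 i) →ₗ[k] H1sm 𝓤 N' :=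
  H1smπ 𝓤 N' ∘ₗ LinearMap.snd k N ↥(Z1 𝓤 N') ∘ₗ (ddtV 𝓤 i).subtype

/-- `(n, y') ↦ q n`, with values in the invariants of `N''`. -/
def ddtVq (h : RepSES i q) : ↥(ddtV 𝓤 i) →ₗ[k] ↥(ddtInv N'') :=
  (q ∘ₗ LinearMap.fst k N ↥(Z1 𝓤 N') ∘ₗ (ddtV 𝓤 i).subtype).codRestrict (ddtInv N'')
    fun v => h.q_invariant v.1.1 v.1.2.1 v.2

set_option linter.unusedVariables false in
theorem A2Inj_of_ext (hK : K.Smooth 𝓤) (h : RepSES i q)
    (hN' : IsSmooth 𝓤 N') (hfin' : Module.Finite k N') (hN : IsSmooth 𝓤 N) (hfin : Module.Finite k N)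
    (hN'' : IsSmooth 𝓤 N'') (hfin'' : Module.Finite k N'')
    (h2' : A2Inj 𝓤 K N' inv) (h2'' : A2Inj 𝓤 K N'' inv) (h1' : A1Surj 𝓤 K N' inv hN' hfin') :
    A2Inj 𝓤 K N inv := by
  intro z hz
  have hS := homCx_shortExact K h
  have hHK := homCx_smooth 𝓤 K hK N hN hfin
  -- Step 1: `i^* z` is a coboundary, so `z` is cohomologous to `q^* z''`.
  have hB : ((homCxMap i h.hi K).zz2 𝓤 z : T2 (homCx N' K)) ∈ BB2 𝓤 (homCx N' K) := by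
    refine h2' _ fun n' hn' => ?_
    have hin' : ∀ g : G, N.ρ g (i n') = i n' := fun g => by rw [← h.hi, hn' g]
    exact hz (i n') hin'
  have hB' : (homCxMap i h.hi K).hh2 𝓤 (HH2π 𝓤 _ z) = 0 := by
    rw [CxHom.hh2_mk, HH2π_eq_zero_iff]
    exact hB
  obtain ⟨w', hw'⟩ := (CxShortExact.exact_HH2_mid hS hHK _).1 hB'
  obtain ⟨z'', rfl⟩ := HH2π_surjective 𝓤 _ w'
  rw [CxHom.hh2_mk, HH2π_eq_iff] at hw'
  -- Step 2: the linear form `(n, y') ↦ inv [z'' ∪ q n]` factors through `(n, y') ↦ [y']`.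
  have key : ∀ v : ↥(ddtV 𝓤 i), ddtVcls 𝓤 (i := i) v = 0 →
      (ddtAlpha2 𝓤 K inv N'' z'' ∘ₗ ddtVq 𝓤 h) v = 0 := by
      rintro ⟨⟨n, y'⟩, hv⟩ hcls
      have hv' : ∀ g : G, i (y'.1 g) = N.ρ g n - n := hv
      have hcls' : H1smπ 𝓤 N' y' = 0 := hcls
      rw [H1smπ_eq_zero_iff] at hcls'
      obtain ⟨n', hn'⟩ := hcls'
      -- `m = n - i n'` is invariant and `q m = q n`
      have hm : ∀ g : G, N.ρ g (n - i n') = n - i n' := by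
        intro g
        have := hv' g
        rw [← hn', δ0_apply, map_sub, h.hi] at this
        rw [map_sub]
        have e1 : N.ρ g n - N.ρ g (i n') - (n - i n')
            = -(N.ρ g (i n') - i n' - (N.ρ g n - n)) := by abel
        rw [← sub_eq_zero, e1, sub_eq_zero.2 this, neg_zero]
      have hqm : q (n - i n') = q n := by rw [map_sub, h.q_i, sub_zero]
      show inv (HH2π 𝓤 K (cupZ2 𝓤 K N'' z'' (q n) (h.q_invariant n y'.1 hv'))) = 0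
      rw [← hz (n - i n') hm]
      refine inv_eq_of_sub_mem_BB2 inv ?_
      show cup2 N'' K z''.1 (q n) - cup2 N K z.1 (n - i n') ∈ BB2 𝓤 K
      rw [← hqm, ← cup2_homCxMap K q h.hq z''.1 (n - i n'), ← cup2_sub_left]
      exact cup2_mem_BB2 𝓤 K N hw' _ hm
  obtain ⟨φ, hφ⟩ := exists_dual_factor (V := ↥(ddtV 𝓤 i)) (W := H1sm 𝓤 N')
    (ddtVcls 𝓤 (i := i)) (ddtAlpha2 𝓤 K inv N'' z'' ∘ₗ ddtVq 𝓤 h) key
  -- Step 3: realise `φ` by a cocycle `e'`, and compare `z''` with `∂ e'`.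
  obtain ⟨e', he'⟩ := h1' φ
  obtain ⟨w'', hw'', hrel⟩ := Conn1Rel.exists hS hHK e'.2
  have h3 : ((z'' - ⟨w'', hw''⟩ : ↥(ZZ2 𝓤 (homCx N'' K))) : T2 (homCx N'' K))
      ∈ BB2 𝓤 (homCx N'' K) := by
    refine h2'' _ fun n'' hn'' => ?_
    obtain ⟨n, y', rfl, hy'⟩ := h.exists_boundary 𝓤 hN n'' hn''
    have hsub : cupZ2 𝓤 K N'' (z'' - ⟨w'', hw''⟩) (q n) hn''
        = cupZ2 𝓤 K N'' z'' (q n) hn'' - cupZ2 𝓤 K N'' ⟨w'', hw''⟩ (q n) hn'' := rfl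
    rw [hsub, map_sub, map_sub,
      ddt_conn_pair 𝓤 K inv hK h hN' hfin' hN hfin e' ⟨w'', hw''⟩ hrel n y' hy' hn'', he' y']
    have := hφ ⟨(n, y'), hy'⟩
    rw [sub_eq_zero]
    exact this.symm
  -- Step 4: conclude.
  obtain ⟨c, hc, -, hfw⟩ := hrel
  have h4 : (homCxMap q h.hq K).t2 w'' ∈ BB2 𝓤 (homCx N K) := by
    rw [hfw]
    exact ⟨c, hc, rfl⟩
  have h5 : (homCxMap q h.hq K).t2 ((z'' : T2 (homCx N'' K)) - w'') ∈ BB2 𝓤 (homCx N K) := by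
    obtain ⟨d, hd, hD⟩ := h3
    refine ⟨(homCxMap q h.hq K).t1 d, (homCxMap q h.hq K).t1_mem_lcT1 𝓤 hd, ?_⟩
    rw [CxHom.D1_t]
    exact congrArg _ hD
  have h6 : (z : T2 (homCx N K)) = (homCxMap q h.hq K).t2 ((z'' : T2 (homCx N'' K)) - w'')
      + (homCxMap q h.hq K).t2 w''
      - ((homCxMap q h.hq K).t2 (z'' : T2 (homCx N'' K)) - (z : T2 (homCx N K))) := by
    rw [map_sub]
    abel
  rw [h6]
  exact Submodule.sub_mem _ (Submodule.add_mem _ h5 h4) hw'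

end Chase

end Fermat.Agent.F4
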