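import Fermat.Agent.F4.DDT.Retract
import Fermat.Agent.F4.DDT.Embed
import Fermat.Agent.F4.DDT.Ext
import Fermat.Agent.F4.Devissage

/-!
# F4 / DDT / Main : the dévissage duality theorem

Assembly of the dévissage duality theorem from
* `devissage_primeTo` (`F4/Devissage.lean`, helper49), `exists_embedding_perm` (`F4/DDT/Embed.lean`,
  helper80),
* `A2Inj_of_ext`, `A1Surj_of_ext`, `A1Inj_of_sub` (`F4/DDT/Ext.lean`, helper32: four-lemma chases),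
* `A2Inj_of_retract`, `A1Surj_of_retract`, `A1Inj_of_sum`, `finite_H1sm_of_ext`,
  `finite_H1sm_of_retract` (`F4/DDT/Retract.lean`).

Main results (`k = 𝔽_p`, `K` a smooth 2-term complex, `inv` a linear form on `HH²(K)`):
* `ddt_primeTo` : if `α²` is injective and `α¹` is surjective for the permutation modules
  `𝔽_p[G/U]`, `U` open **of index prime to `p`**, then the same holds for every finite smooth `N`;
* `ddt_inj_levels` : if moreover `α¹` is injective for `𝔽_p[G/V]`, `V ∈ 𝓤` (the normal levels), then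
  `α¹` is injective for every finite smooth `N`;
* `finite_H1sm_primeTo` : finiteness of smooth `H¹` from the `𝔽_p[G/U]`, `p ∤ [G:U]`;
* `ddt_main`, `ddt_inj_main`, `finite_H1sm_of_perm_main` : the statements of `F4/DDT.lean`.
-/

set_option autoImplicit false

open CategoryTheory groupCohomology

namespace Fermat.Agent.F4

section SubQuot

variable {k G : Type} [Field k] [Group G] (𝓤 : Levels G)

/-- A module which embeds equivariantly into a smooth module is smooth. -/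
lemma isSmooth_of_injective {N N₁ : Rep.{0} k G} (i : N →ₗ[k] N₁)
    (hi : ∀ (g : G) (n : N), i (N.ρ g n) = N₁.ρ g (i n)) (hinj : Function.Injective i)
    (h₁ : IsSmooth 𝓤 N₁) : IsSmooth 𝓤 N := by
  intro n
  obtain ⟨U, hU, hfix⟩ := h₁ (i n)
  refine ⟨U, hU, fun g hg => hinj ?_⟩
  rw [hi, hfix g hg]

/-- An equivariant quotient of a smooth module is smooth. -/
lemma isSmooth_of_surjective {N N₂ : Rep.{0} k G} (q : N →ₗ[k] N₂)
    (hq : ∀ (g : G) (n : N), q (N.ρ g n) = N₂.ρ g (q n)) (hsurj : Function.Surjective q)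
    (h : IsSmooth 𝓤 N) : IsSmooth 𝓤 N₂ := by
  intro n₂
  obtain ⟨n, rfl⟩ := hsurj n₂
  obtain ⟨U, hU, hfix⟩ := h n
  refine ⟨U, hU, fun g hg => ?_⟩
  rw [← hq, hfix g hg]

end SubQuot

variable {p : ℕ} [Fact p.Prime] {G : Type} [Group G]

/-- **Dévissage duality theorem** (`α²` injective, `α¹` surjective), base case only for the open
subgroups of index prime to `p`. -/
theorem ddt_primeTo (𝓤 : Levels G) (K : Cx (ZMod p) G) (hK : K.Smooth 𝓤)
    (inv : HH2 𝓤 K →ₗ[ZMod p] ZMod p)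
    (h2 : ∀ (U : Subgroup G), 𝓤.IsOpen U → ¬ p ∣ U.index →
      A2Inj 𝓤 K (permRep (ZMod p) U) inv)
    (h1 : ∀ (U : Subgroup G) (hU : 𝓤.IsOpen U), ¬ p ∣ U.index →
      A1Surj 𝓤 K (permRep (ZMod p) U) inv (permRep_smooth 𝓤 hU) (permRep_finite 𝓤 hU))
    (N : Rep.{0} (ZMod p) G) (hN : IsSmooth 𝓤 N) (hfin : Module.Finite (ZMod p) N) :
    A2Inj 𝓤 K N inv ∧ A1Surj 𝓤 K N inv hN hfin := by
  have key := devissage_primeTo 𝓤
    (fun N => A2Inj 𝓤 K N inv ∧ ∀ hN hfin, A1Surj 𝓤 K N inv hN hfin)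
    (fun U hU hpU => ⟨h2 U hU hpU, fun _ _ => h1 U hU hpU⟩)
    (fun N' N N'' i hi q hq inj surj ex hN hfin hP' hP'' =>
      have h : RepSES i q := ⟨hi, hq, inj, surj, ex⟩
      have hN' : IsSmooth 𝓤 N' := isSmooth_of_injective 𝓤 i hi inj hN
      have hfin' : Module.Finite (ZMod p) N' := Module.Finite.of_injective i inj
      have hN'' : IsSmooth 𝓤 N'' := isSmooth_of_surjective 𝓤 q hq surj hN
      have hfin'' : Module.Finite (ZMod p) N'' := Module.Finite.of_surjective q surj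
      ⟨A2Inj_of_ext 𝓤 K inv hK h hN' hfin' hN hfin hN'' hfin'' hP'.1 hP''.1 (hP'.2 hN' hfin'),
        fun hN₂ hfin₂ => A1Surj_of_ext 𝓤 K inv hK h hN' hfin' hN₂ hfin₂ hN'' hfin''
          (hP'.2 hN' hfin') (hP''.2 hN'' hfin'') hP''.1⟩)
    (fun N N₁ i hi r hr hri hN₁ hfin₁ hP₁ =>
      ⟨A2Inj_of_retract 𝓤 K inv i hi r hr hri hP₁.1,
        fun hN₂ hfin₂ => A1Surj_of_retract 𝓤 K inv i hi r hr hri hN₂ hfin₂ hN₁ hfin₁
          (hP₁.2 hN₁ hfin₁)⟩)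
    N hN hfin
  exact ⟨key.1, key.2 hN hfin⟩

/-- **Dévissage duality theorem** (`α¹` injective): base case for `α¹` injective only at the
levels `V ∈ 𝓤`. -/
theorem ddt_inj_levels (𝓤 : Levels G) (K : Cx (ZMod p) G) (hK : K.Smooth 𝓤)
    (inv : HH2 𝓤 K →ₗ[ZMod p] ZMod p)
    (h2 : ∀ (U : Subgroup G), 𝓤.IsOpen U → ¬ p ∣ U.index →
      A2Inj 𝓤 K (permRep (ZMod p) U) inv)
    (h1 : ∀ (U : Subgroup G) (hU : 𝓤.IsOpen U), ¬ p ∣ U.index →
      A1Surj 𝓤 K (permRep (ZMod p) U) inv (permRep_smooth 𝓤 hU) (permRep_finite 𝓤 hU))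
    (h1i : ∀ (V : Subgroup G) (hV : V ∈ 𝓤.sets),
      A1Inj 𝓤 K (permRep (ZMod p) V) inv (permRep_smooth 𝓤 (𝓤.isOpen_of_mem hV))
        (permRep_finite 𝓤 (𝓤.isOpen_of_mem hV)))
    (N : Rep.{0} (ZMod p) G) (hN : IsSmooth 𝓤 N) (hfin : Module.Finite (ZMod p) N) :
    A1Inj 𝓤 K N inv hN hfin := by
  obtain ⟨V, hV, P, Q, i, q, ι, hι, a, b, hi, hq, hinj, hsurj, hex, hP, hfinP, hQ, hfinQ,
    ha, hb, hab⟩ := exists_embedding_perm 𝓤 N hN hfin
  have hVo : 𝓤.IsOpen V := 𝓤.isOpen_of_mem hV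
  have hPinj : A1Inj 𝓤 K P inv hP hfinP :=
    A1Inj_of_sum 𝓤 K inv (fun _ : ι => permRep (ZMod p) V) a b ha hb hab hP hfinP
      (fun _ => permRep_smooth 𝓤 hVo) (fun _ => permRep_finite 𝓤 hVo) (fun _ => h1i V hV)
  have hQd := ddt_primeTo 𝓤 K hK inv h2 h1 Q hQ hfinQ
  exact A1Inj_of_sub 𝓤 K inv hK ⟨hi, hq, hinj, hsurj, hex⟩ hN hfin hP hfinP hQ hfinQ
    hPinj hQd.2 hQd.1

/-- Finiteness of smooth `H¹` by dévissage from the permutation modules of index prime to `p`. -/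
theorem finite_H1sm_primeTo (𝓤 : Levels G)
    (h : ∀ (U : Subgroup G), 𝓤.IsOpen U → ¬ p ∣ U.index →
      Module.Finite (ZMod p) (H1sm 𝓤 (permRep (ZMod p) U)))
    (N : Rep.{0} (ZMod p) G) (hN : IsSmooth 𝓤 N) (hfin : Module.Finite (ZMod p) N) :
    Module.Finite (ZMod p) (H1sm 𝓤 N) :=
  devissage_primeTo 𝓤 (fun N => Module.Finite (ZMod p) (H1sm 𝓤 N)) h
    (fun _ _ _ _ hi _ hq inj surj ex hN _ hP' hP'' =>
      finite_H1sm_of_ext 𝓤 ⟨hi, hq, inj, surj, ex⟩ hN hP' hP'')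
    (fun _ _ i hi r hr hri _ _ hP₁ => finite_H1sm_of_retract 𝓤 i hi r hr hri hP₁)
    N hN hfin

/-- **Dévissage duality theorem**, injectivity of `α²` and surjectivity of `α¹`
(statement of `F4/DDT.lean`). -/
theorem ddt_main (𝓤 : Levels G) (K : Cx (ZMod p) G) (hK : K.Smooth 𝓤)
    (inv : HH2 𝓤 K →ₗ[ZMod p] ZMod p)
    (h2 : ∀ (U : Subgroup G), 𝓤.IsOpen U → A2Inj 𝓤 K (permRep (ZMod p) U) inv)
    (h1 : ∀ (U : Subgroup G) (hU : 𝓤.IsOpen U),
      A1Surj 𝓤 K (permRep (ZMod p) U) inv (permRep_smooth 𝓤 hU) (permRep_finite 𝓤 hU))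
    (N : Rep.{0} (ZMod p) G) (hN : IsSmooth 𝓤 N) (hfin : Module.Finite (ZMod p) N) :
    A2Inj 𝓤 K N inv ∧ A1Surj 𝓤 K N inv hN hfin :=
  ddt_primeTo 𝓤 K hK inv (fun U hU _ => h2 U hU) (fun U hU _ => h1 U hU) N hN hfin

/-- **Dévissage duality theorem**, injectivity of `α¹` (statement of `F4/DDT.lean`). -/
theorem ddt_inj_main (𝓤 : Levels G) (K : Cx (ZMod p) G) (hK : K.Smooth 𝓤)
    (inv : HH2 𝓤 K →ₗ[ZMod p] ZMod p)
    (h2 : ∀ (U : Subgroup G), 𝓤.IsOpen U → A2Inj 𝓤 K (permRep (ZMod p) U) inv)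
    (h1 : ∀ (U : Subgroup G) (hU : 𝓤.IsOpen U),
      A1Surj 𝓤 K (permRep (ZMod p) U) inv (permRep_smooth 𝓤 hU) (permRep_finite 𝓤 hU))
    (h1i : ∀ (U : Subgroup G) (hU : 𝓤.IsOpen U),
      A1Inj 𝓤 K (permRep (ZMod p) U) inv (permRep_smooth 𝓤 hU) (permRep_finite 𝓤 hU))
    (N : Rep.{0} (ZMod p) G) (hN : IsSmooth 𝓤 N) (hfin : Module.Finite (ZMod p) N) :
    A1Inj 𝓤 K N inv hN hfin :=
  ddt_inj_levels 𝓤 K hK inv (fun U hU _ => h2 U hU) (fun U hU _ => h1 U hU)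
    (fun V hV => h1i V (𝓤.isOpen_of_mem hV)) N hN hfin

/-- Finiteness of smooth `H¹` by dévissage from permutation modules
(statement of `F4/DDT.lean`). -/
theorem finite_H1sm_of_perm_main (𝓤 : Levels G)
    (h : ∀ (U : Subgroup G), 𝓤.IsOpen U → Module.Finite (ZMod p) (H1sm 𝓤 (permRep (ZMod p) U)))
    (N : Rep.{0} (ZMod p) G) (hN : IsSmooth 𝓤 N) (hfin : Module.Finite (ZMod p) N) :
    Module.Finite (ZMod p) (H1sm 𝓤 N) :=
  finite_H1sm_primeTo 𝓤 (fun U hU _ => h U hU) N hN hfin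

end Fermat.Agent.F4
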