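import Fermat.Agent.F4.Devissage
import Fermat.Agent.F4.DDT.Basic

/-!
# F4 / DDT / FiniteH1 : finiteness of smooth `H¹` by dévissage

`H¹_sm(G, N)` is finite for every finite smooth `𝔽_p[G]`-module `N` as soon as it is finite for the
permutation modules `𝔽_p[G/U]`, `U` open  (`devissage` + middle exactness of the `H¹`-sequence).
-/

set_option autoImplicit false
set_option linter.style.haveILetI false
set_option linter.unusedSectionVars false

open CategoryTheory groupCohomology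

namespace Fermat.Agent.F4

variable {p : ℕ} [Fact p.Prime] {G : Type} [Group G]

/-- `H¹_sm` of a retract. -/
lemma H1smMap_retract (𝓤 : Levels G) {N M : Rep.{0} (ZMod p) G}
    (s : N →ₗ[ZMod p] M) (hs : ∀ g n, s (N.ρ g n) = M.ρ g (s n))
    (r : M →ₗ[ZMod p] N) (hr : ∀ g m, r (M.ρ g m) = N.ρ g (r m))
    (hrs : ∀ n, r (s n) = n) (x : H1sm 𝓤 N) :
    H1smMap 𝓤 r hr (H1smMap 𝓤 s hs x) = x := by
  obtain ⟨y, rfl⟩ := H1smπ_surjective 𝓤 N x
  rw [H1smMap_mk, H1smMap_mk]
  congr 1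
  refine Subtype.ext (funext fun g => ?_)
  show r (s (y.1 g)) = y.1 g
  exact hrs _

/-- finiteness of smooth `H¹` by dévissage from the permutation modules of index prime to `p`. -/
theorem finite_H1sm_of_perm_primeTo (𝓤 : Levels G)
    (h : ∀ (U : Subgroup G), 𝓤.IsOpen U → ¬ p ∣ U.index →
      Module.Finite (ZMod p) (H1sm 𝓤 (permRep (ZMod p) U)))
    (N : Rep.{0} (ZMod p) G) (hN : IsSmooth 𝓤 N) (hfin : Module.Finite (ZMod p) N) :
    Module.Finite (ZMod p) (H1sm 𝓤 N) := by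
  refine devissage_primeTo 𝓤 (fun N => Module.Finite (ZMod p) (H1sm 𝓤 N)) h ?_ ?_ N hN hfin
  · intro N' N N'' i hi q hq hinj hsurj hex hN _ hP' hP''
    have hses : RepSES i q := ⟨hi, hq, hinj, hsurj, hex⟩
    haveI := hP'
    haveI := hP''
    have hker : LinearMap.ker (H1smMap 𝓤 q hq) ≤ LinearMap.range (H1smMap 𝓤 i hi) := by
      intro x hx
      obtain ⟨x', hx'⟩ := hses.H1sm_exact_mid 𝓤 hN x (LinearMap.mem_ker.mp hx)
      exact ⟨x', hx'⟩
    haveI : Module.Finite (ZMod p) (LinearMap.range (H1smMap 𝓤 i hi)) := inferInstance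
    haveI : Module.Finite (ZMod p) (LinearMap.ker (H1smMap 𝓤 q hq)) :=
      Module.Finite.of_injective (Submodule.inclusion hker) (Submodule.inclusion_injective hker)
    haveI : Module.Finite (ZMod p) (H1sm 𝓤 N ⧸ LinearMap.ker (H1smMap 𝓤 q hq)) :=
      Module.Finite.equiv (H1smMap 𝓤 q hq).quotKerEquivRange.symm
    exact Module.Finite.of_submodule_quotient (LinearMap.ker (H1smMap 𝓤 q hq))
  · intro N M s hs r hr hrs _ _ hPM
    haveI := hPM
    refine Module.Finite.of_injective (H1smMap 𝓤 s hs) fun x x' hxx' => ?_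
    rw [← H1smMap_retract 𝓤 s hs r hr hrs x, ← H1smMap_retract 𝓤 s hs r hr hrs x', hxx']

/-- finiteness of smooth `H¹` by dévissage from the permutation modules
(the statement of `finite_H1sm_of_perm` in `F4/DDT.lean`). -/
theorem finite_H1sm_of_perm_dev (𝓤 : Levels G)
    (h : ∀ (U : Subgroup G), 𝓤.IsOpen U → Module.Finite (ZMod p) (H1sm 𝓤 (permRep (ZMod p) U)))
    (N : Rep.{0} (ZMod p) G) (hN : IsSmooth 𝓤 N) (hfin : Module.Finite (ZMod p) N) :
    Module.Finite (ZMod p) (H1sm 𝓤 N) :=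
  finite_H1sm_of_perm_primeTo 𝓤 (fun U hU _ => h U hU) N hN hfin

end Fermat.Agent.F4
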