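import Fermat.Agent.F4.DDT.Basic
import Fermat.Agent.F4.HyperPair

/-!
# F4 / DDT / Retract : stability of the duality properties under retracts and finite sums;
finiteness of smooth `H¹` under extensions and retracts

* `A2Inj_of_retract`, `A1Surj_of_retract` : retracts;
* `A1Inj_of_sum` : finite direct sums (given by injections `a j` and projections `b j`);
* `finite_H1sm_of_ext`, `finite_H1sm_of_retract`.
-/

set_option autoImplicit false

open CategoryTheory groupCohomology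

namespace Fermat.Agent.F4

variable {k G : Type} [Field k] [Group G]

section Retract

variable (𝓤 : Levels G) (K : Cx k G) (inv : HH2 𝓤 K →ₗ[k] k) {N N₁ : Rep.{0} k G}
  (i : N →ₗ[k] N₁) (hi : ∀ (g : G) (n : N), i (N.ρ g n) = N₁.ρ g (i n))
  (r : N₁ →ₗ[k] N) (hr : ∀ (g : G) (n : N₁), r (N₁.ρ g n) = N.ρ g (r n))
  (hri : ∀ n, r (i n) = n)

include hri in
lemma homCxMap_t2_retract (z : T2 (homCx N K)) :
    (homCxMap i hi K).t2 ((homCxMap r hr K).t2 z) = z := by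
  refine Prod.ext (funext fun p => LinearMap.ext fun n => ?_)
    (funext fun g => LinearMap.ext fun n => ?_)
  · show (z.1 p : N →ₗ[k] K.K0) (r (i n)) = (z.1 p : N →ₗ[k] K.K0) n
    rw [hri]
  · show (z.2 g : N →ₗ[k] K.K1) (r (i n)) = (z.2 g : N →ₗ[k] K.K1) n
    rw [hri]

include hi hr hri in
/-- Retracts, `α²` injective. -/
theorem A2Inj_of_retract (h2 : A2Inj 𝓤 K N₁ inv) : A2Inj 𝓤 K N inv := by
  intro z hz
  have h1 : (((homCxMap r hr K).zz2 𝓤 z : ↥(ZZ2 𝓤 (homCx N₁ K))) : T2 (homCx N₁ K))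
      ∈ BB2 𝓤 (homCx N₁ K) := by
    apply h2
    intro n₁ hn₁
    have hinv : ∀ g, N.ρ g (r n₁) = r n₁ := fun g => by rw [← hr, hn₁]
    have heq : cupZ2 𝓤 K N₁ ((homCxMap r hr K).zz2 𝓤 z) n₁ hn₁ = cupZ2 𝓤 K N z (r n₁) hinv :=
      Subtype.ext (cup2_homCxMap K r hr z.1 n₁)
    rw [heq]
    exact hz (r n₁) hinv
  obtain ⟨c, hc, hcz⟩ := (mem_BB2_iff 𝓤 _ _).1 h1
  refine (mem_BB2_iff 𝓤 _ _).2 ⟨(homCxMap i hi K).t1 c,
    ((homCxMap i hi K).t1_mem_lcT1 𝓤 (show c ∈ lcT1 𝓤 _ from ⟨hc, Submodule.mem_top⟩)).1, ?_⟩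
  rw [CxHom.D1_t, hcz]
  exact homCxMap_t2_retract K i hi r hr hri z.1

include hi hr hri in
/-- Retracts, `α¹` surjective. -/
theorem A1Surj_of_retract (hN : IsSmooth 𝓤 N) (hfin : Module.Finite k N)
    (hN₁ : IsSmooth 𝓤 N₁) (hfin₁ : Module.Finite k N₁)
    (h1 : A1Surj 𝓤 K N₁ inv hN₁ hfin₁) : A1Surj 𝓤 K N inv hN hfin := by
  intro φ
  obtain ⟨e₁, he₁⟩ := h1 (φ.comp (H1smMap 𝓤 r hr))
  refine ⟨(homCxMap i hi K).zz1 𝓤 e₁, fun y => ?_⟩
  have heq : cupZ1 𝓤 K N hN hfin ((homCxMap i hi K).zz1 𝓤 e₁) y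
      = cupZ1 𝓤 K N₁ hN₁ hfin₁ e₁ (Z1map 𝓤 i hi y) :=
    Subtype.ext (cup1_homCxMap K i hi e₁.1 y.1)
  rw [heq, he₁]
  show φ (H1smπ 𝓤 N (Z1map 𝓤 r hr (Z1map 𝓤 i hi y))) = φ (H1smπ 𝓤 N y)
  congr 2
  exact Subtype.ext (funext fun g => hri _)

include hi hr hri in
/-- Retracts, finiteness of `H¹`. -/
theorem finite_H1sm_of_retract (h : Module.Finite k (H1sm 𝓤 N₁)) :
    Module.Finite k (H1sm 𝓤 N) := by
  have hinj : Function.Injective (H1smMap 𝓤 i hi) := by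
    have hcomp : ∀ x, H1smMap 𝓤 r hr (H1smMap 𝓤 i hi x) = x := by
      intro x
      obtain ⟨y, rfl⟩ := H1smπ_surjective 𝓤 N x
      rw [H1smMap_mk, H1smMap_mk]
      congr 1
      exact Subtype.ext (funext fun g => hri _)
    exact Function.LeftInverse.injective hcomp
  exact Module.Finite.of_injective (H1smMap 𝓤 i hi) hinj

end Retract

section Sum

variable (𝓤 : Levels G) (K : Cx k G) (inv : HH2 𝓤 K →ₗ[k] k) {P : Rep.{0} k G}
  {ι : Type} [Fintype ι] (Q : ι → Rep.{0} k G)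
  (a : ∀ j, Q j →ₗ[k] P) (b : ∀ j, P →ₗ[k] Q j)
  (ha : ∀ (j : ι) (g : G) (x : Q j), a j ((Q j).ρ g x) = P.ρ g (a j x))
  (hb : ∀ (j : ι) (g : G) (x : P), b j (P.ρ g x) = (Q j).ρ g (b j x))
  (hab : ∀ x : P, ∑ j, a j (b j x) = x)

include ha hb hab in
/-- Finite direct sums, `α¹` injective. -/
theorem A1Inj_of_sum (hP : IsSmooth 𝓤 P) (hfinP : Module.Finite k P)
    (hQ : ∀ j, IsSmooth 𝓤 (Q j)) (hfinQ : ∀ j, Module.Finite k (Q j))
    (h1 : ∀ j, A1Inj 𝓤 K (Q j) inv (hQ j) (hfinQ j)) : A1Inj 𝓤 K P inv hP hfinP := by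
  classical
  intro e he
  -- each `a_j^* e` is a coboundary
  have hj : ∀ j, ∃ x : Q j →ₗ[k] K.K0, D0 (homCx (Q j) K) x = (homCxMap (a j) (ha j) K).t1 e.1 := by
    intro j
    have := h1 j ((homCxMap (a j) (ha j) K).zz1 𝓤 e) (fun y => by
      have heq : cupZ1 𝓤 K (Q j) (hQ j) (hfinQ j) ((homCxMap (a j) (ha j) K).zz1 𝓤 e) y
          = cupZ1 𝓤 K P hP hfinP e (Z1map 𝓤 (a j) (ha j) y) :=
        Subtype.ext (cup1_homCxMap K (a j) (ha j) e.1 y.1)
      rw [heq]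
      exact he _)
    exact (mem_BB1_iff _ _).1 this
  choose x hx using hj
  refine (mem_BB1_iff _ _).2 ⟨∑ j, (x j).comp (b j), ?_⟩
  have hsum : (e : T1 (homCx P K))
      = ∑ j, (homCxMap (b j) (hb j) K).t1 ((homCxMap (a j) (ha j) K).t1 e.1) := by
    refine Prod.ext (funext fun g => LinearMap.ext fun n => ?_) (LinearMap.ext fun n => ?_)
    · rw [Prod.fst_sum, Finset.sum_apply, LinearMap.sum_apply]
      show (e.1.1 g : P →ₗ[k] K.K0) n = ∑ j, (e.1.1 g : P →ₗ[k] K.K0) (a j (b j n))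
      rw [← map_sum, hab]
    · rw [Prod.snd_sum, LinearMap.sum_apply]
      show (e.1.2 : P →ₗ[k] K.K1) n = ∑ j, (e.1.2 : P →ₗ[k] K.K1) (a j (b j n))
      rw [← map_sum, hab]
  rw [hsum, map_sum]
  refine Finset.sum_congr rfl fun j _ => ?_
  rw [← hx j, ← CxHom.D0_t]
  rfl

end Sum

section Finite

variable (𝓤 : Levels G) {N' N N'' : Rep.{0} k G} {i : N' →ₗ[k] N} {q : N →ₗ[k] N''}

/-- Extensions, finiteness of `H¹`. -/
theorem finite_H1sm_of_ext (h : RepSES i q) (hN : IsSmooth 𝓤 N)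
    (h' : Module.Finite k (H1sm 𝓤 N')) (h'' : Module.Finite k (H1sm 𝓤 N'')) :
    Module.Finite k (H1sm 𝓤 N) := by
  have hker : LinearMap.ker (H1smMap 𝓤 q h.hq) ≤ LinearMap.range (H1smMap 𝓤 i h.hi) := by
    intro x hx
    obtain ⟨x', hx'⟩ := h.H1sm_exact_mid 𝓤 hN x (LinearMap.mem_ker.1 hx)
    exact ⟨x', hx'⟩
  have hfk : Module.Finite k ↥(LinearMap.ker (H1smMap 𝓤 q h.hq)) := by
    have : Module.Finite k ↥(LinearMap.range (H1smMap 𝓤 i h.hi)) := inferInstance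
    exact Module.Finite.of_injective (Submodule.inclusion hker) (Submodule.inclusion_injective hker)
  have hfr : Module.Finite k ↥(LinearMap.range (H1smMap 𝓤 q h.hq)) :=
    Module.Finite.of_injective (Submodule.subtype _) (Submodule.injective_subtype _)
  have hfq : Module.Finite k (H1sm 𝓤 N ⧸ LinearMap.ker (H1smMap 𝓤 q h.hq)) :=
    Module.Finite.equiv (H1smMap 𝓤 q h.hq).quotKerEquivRange.symm
  exact Module.Finite.of_submodule_quotient (LinearMap.ker (H1smMap 𝓤 q h.hq))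

end Finite

end Fermat.Agent.F4
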